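/-
MAZUR / [MZ-A], cell [A-PLACE] (owner helper27), ABSTRACT CORE (helper3, prefix `mza_pl_`).

For `τ ∈ ℍ` the Taylor-germ embedding `φ_τ : Q̄(X₀(N)) →ₐ[Q̄] ℂ((w))` of the gateway context over `Q̄`
(`gw_phiPt (gw_ctxBar N) τ`) defines a place `x_τ` of `modularFunctionFieldBar N`.  If `U` is an
element of the function field whose `q`-expansion (pushed to `ℂ` by `br_iota`) is the Laurent
`q`-expansion of a holomorphic function `h` on `ℍ`, then `φ_τ U` is the Taylor germ of `h` at `τ`.
Hence: `j(τ) = ι j₀`, `h(τ) = ι u₀` ⟹ `ord_{x_τ} (j - j₀) > 0` and `ord_{x_τ} (U - u₀) > 0`.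
No complex context, no base change.
-/
import Mathlib
import Fermat.Agent.JT3.Gateway.PointVal
import Fermat.Agent.JT3.Gateway.CPlaces

set_option autoImplicit false

noncomputable section

open UpperHalfPlane
open scoped MatrixGroups Manifold

namespace Fermat.Agent.MZ

open Fermat.Agent.S24 Fermat.Agent.JT3 AlgebraicCurve
open Fermat.Agent.S24.Br

local notation "Qb" => AlgebraicClosure ℚ

variable (N : ℕ) [NeZero N]

/-- the Taylor-germ embedding at `τ` of the function field of `X₀(N)` over `Q̄` -/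
def mza_pl_phi (τ : ℍ) : ModularCurve.modularFunctionFieldBar N →ₐ[Qb] LaurentSeries ℂ :=
  gw_phiPt (gw_ctxBar N) τ

theorem mza_pl_phi_algebraMap (τ : ℍ) (a : A0 N) :
    mza_pl_phi N τ (algebraMap (A0 N) (ModularCurve.modularFunctionFieldBar N) a)
      = ff_germ τ (ff_an N a) :=
  gw_phiPt_algebraMap (gw_ctxBar N) τ a

theorem mza_pl_germ_sub (τ : ℍ) {f g : ℍ → ℂ} (hf : MDiff f) (hg : MDiff g) :
    ff_germ τ (f - g) = ff_germ τ f - ff_germ τ g := by
  simp only [ff_germ, gm_taylor_sub τ hf hg, map_sub]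

/-- a nonzero Taylor germ of a function vanishing at `τ` has positive order -/
theorem mza_pl_germ_order_pos (τ : ℍ) {g : ℍ → ℂ} (hg : MDiff g) (h0 : g τ = 0)
    (hne : ff_germ τ g ≠ 0) : 0 < (ff_germ τ g).order := by
  have hp : gm_taylor τ g ≠ 0 := by
    intro h
    apply hne
    rw [ff_germ, h, map_zero]
  obtain ⟨k, hk⟩ : ∃ k : ℕ, (gm_taylor τ g).order = k := by
    have h1 : (gm_taylor τ g).order ≠ ⊤ := by rwa [ne_eq, PowerSeries.order_eq_top]
    exact ⟨(gm_taylor τ g).order.toNat, (ENat.natCast_toNat h1).symm⟩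
  rw [ff_germ, ff_ofPowerSeries_order _ hk]
  have hk0 : k ≠ 0 := by
    rintro rfl
    have h1 := (PowerSeries.order_eq_nat.mp hk).1
    rw [gm_taylor_coeff_zero τ hg, h0] at h1
    exact h1 rfl
  exact_mod_cast Nat.pos_of_ne_zero hk0

/-- **the germ of an element of the function field with a holomorphic realisation** -/
theorem mza_pl_phi_of_laurentQ (τ : ℍ) (U : ModularCurve.modularFunctionFieldBar N) (h : ℍ → ℂ)
    (hh : br_HasLaurentQ h
      (ModularCurve.coeffMap (br_iota : Qb →+* ℂ) (U : LaurentSeries Qb))) :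
    mza_pl_phi N τ U = ff_germ τ h := by
  obtain ⟨a, b, hb, hab⟩ := IsFractionRing.div_surjective (A := A0 N) U
  have hb0 : b ≠ 0 := nonZeroDivisors.ne_zero hb
  have hbF : algebraMap (A0 N) (ModularCurve.modularFunctionFieldBar N) b ≠ 0 :=
    fun h0 => hb0 (IsFractionRing.injective (A0 N) (ModularCurve.modularFunctionFieldBar N)
      (h0.trans (map_zero _).symm))
  -- `U * b = a`
  have hUb : U * algebraMap (A0 N) (ModularCurve.modularFunctionFieldBar N) b
      = algebraMap (A0 N) (ModularCurve.modularFunctionFieldBar N) a := by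
    rw [← hab, div_mul_cancel₀ _ hbF]
  have hUb' : (U : LaurentSeries Qb) * (b : LaurentSeries Qb) = (a : LaurentSeries Qb) := by
    have := congrArg (fun z : ModularCurve.modularFunctionFieldBar N => (z : LaurentSeries Qb)) hUb
    simpa only [MulMemClass.coe_mul, br_algebraMap_A0F] using this
  -- the realisations: `an a = h * an b`
  have h1 : ff_an N a = h * ff_an N b := by
    refine (br_an_spec N a).unique_left ?_
    have h2 := hh.mul (br_an_spec N b)
    rw [← map_mul, hUb'] at h2
    exact h2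
  have hmb : MDiff (ff_an N b) := (br_an_spec N b).mdiff
  have h3 : ff_germ τ (ff_an N a) = ff_germ τ h * ff_germ τ (ff_an N b) := by
    rw [h1]
    exact (ff_isGerm τ).mul h (ff_an N b) hh.mdiff hmb
  have h4 : mza_pl_phi N τ (algebraMap (A0 N) (ModularCurve.modularFunctionFieldBar N) b) ≠ 0 :=
    (map_ne_zero (mza_pl_phi N τ)).mpr hbF
  have h5 := congrArg (mza_pl_phi N τ) hUb
  rw [map_mul, mza_pl_phi_algebraMap, mza_pl_phi_algebraMap, h3] at h5
  rw [mza_pl_phi_algebraMap] at h4
  exact mul_right_cancel₀ h4 h5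

/-- **[A-PLACE], abstract core.** -/
theorem mza_pl_abs (U : ModularCurve.modularFunctionFieldBar N) (h : ℍ → ℂ)
    (hh : br_HasLaurentQ h
      (ModularCurve.coeffMap (br_iota : Qb →+* ℂ) (U : LaurentSeries Qb)))
    (τ : ℍ) (j0 u0 : Qb) (hj : br_iota j0 = kleinJ τ) (hu : br_iota u0 = h τ)
    (hU : U ≠ algebraMap Qb (ModularCurve.modularFunctionFieldBar N) u0) :
    ∃ x : Place Qb (ModularCurve.modularFunctionFieldBar N),
      0 < x.ord (ff_jF N - algebraMap Qb (ModularCurve.modularFunctionFieldBar N) j0) ∧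
      0 < x.ord (U - algebraMap Qb (ModularCurve.modularFunctionFieldBar N) u0) := by
  set φ := mza_pl_phi N τ with hφ
  -- the germ of `j - j₀`
  have hjne : ff_jF N - algebraMap Qb (ModularCurve.modularFunctionFieldBar N) j0 ≠ 0 := by
    intro h0
    have htr : Transcendental Qb
        (algebraMap (A0 N) (ModularCurve.modularFunctionFieldBar N) (ff_j1 N)) :=
      gcp_transcendental (C := gw_ctxBar N) (j1 := ff_j1 N) (ff_an_j1 N)
    apply htr
    have h1 : algebraMap (A0 N) (ModularCurve.modularFunctionFieldBar N) (ff_j1 N)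
        = algebraMap Qb (ModularCurve.modularFunctionFieldBar N) j0 := sub_eq_zero.mp h0
    rw [h1]
    exact isAlgebraic_algebraMap j0
  have hconst : ∀ c : Qb, φ (algebraMap Qb (ModularCurve.modularFunctionFieldBar N) c)
      = ff_germ τ (fun _ => (br_iota c : ℂ)) := by
    intro c
    rw [po_map_algebraMap, (ff_isGerm τ).const]
    rfl
  have hmj : MDiff kleinJ := by
    have := (br_an_spec N (ff_j1 N)).mdiff
    rwa [← ff_an_apply, ff_an_j1] at this
  have hjgerm : φ (ff_jF N - algebraMap Qb (ModularCurve.modularFunctionFieldBar N) j0)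
      = ff_germ τ (kleinJ - fun _ => kleinJ τ) := by
    have h1 : φ (ff_jF N) = ff_germ τ kleinJ := by
      have := mza_pl_phi_algebraMap N τ (ff_j1 N)
      rw [ff_an_j1] at this
      exact this
    rw [map_sub, h1, hconst, hj]
    exact (mza_pl_germ_sub τ hmj mdifferentiable_const).symm
  -- the germ of `U - u₀`
  have hUne : U - algebraMap Qb (ModularCurve.modularFunctionFieldBar N) u0 ≠ 0 :=
    sub_ne_zero.mpr hU
  have hUgerm : φ (U - algebraMap Qb (ModularCurve.modularFunctionFieldBar N) u0)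
      = ff_germ τ (h - fun _ => h τ) := by
    rw [map_sub, hφ, mza_pl_phi_of_laurentQ N τ U h hh, ← hφ, hconst, hu]
    exact (mza_pl_germ_sub τ hh.mdiff mdifferentiable_const).symm
  have hpos1 : 0 < po_ord φ (ff_jF N - algebraMap Qb (ModularCurve.modularFunctionFieldBar N) j0) := by
    rw [po_ord_def, hjgerm]
    refine mza_pl_germ_order_pos τ (hmj.sub mdifferentiable_const) (by simp) ?_
    rw [← hjgerm]
    exact (map_ne_zero φ).mpr hjne
  have hpos2 : 0 < po_ord φ (U - algebraMap Qb (ModularCurve.modularFunctionFieldBar N) u0) := by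
    rw [po_ord_def, hUgerm]
    refine mza_pl_germ_order_pos τ (hh.mdiff.sub mdifferentiable_const) (by simp) ?_
    rw [← hUgerm]
    exact (map_ne_zero φ).mpr hUne
  -- the place
  have hφpos : ∃ f : ModularCurve.modularFunctionFieldBar N, 0 < po_ord φ f := ⟨_, hpos1⟩
  obtain ⟨ϖ, hϖ⟩ := IsDiscreteValuationRing.exists_irreducible
    (po_place φ hφpos).toValuationSubring
  have hg0 : 0 < po_ord φ ((ϖ : po_valSubring φ) : ModularCurve.modularFunctionFieldBar N) :=
    po_ord_irreducible_pos φ hϖ
  have hord := po_ord_eq_mul_ord φ hφpos hϖ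
  refine ⟨po_place φ hφpos, ?_, ?_⟩
  · have h1 := hord (ff_jF N - algebraMap Qb (ModularCurve.modularFunctionFieldBar N) j0)
    rw [h1] at hpos1
    rcases lt_trichotomy 0 ((po_place φ hφpos).ord
      (ff_jF N - algebraMap Qb (ModularCurve.modularFunctionFieldBar N) j0)) with h2 | h2 | h2
    · exact h2
    · rw [← h2, mul_zero] at hpos1; exact absurd hpos1 (lt_irrefl _)
    · exact absurd hpos1 (not_lt.mpr (mul_nonpos_of_nonneg_of_nonpos hg0.le h2.le))
  · have h1 := hord (U - algebraMap Qb (ModularCurve.modularFunctionFieldBar N) u0)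
    rw [h1] at hpos2
    rcases lt_trichotomy 0 ((po_place φ hφpos).ord
      (U - algebraMap Qb (ModularCurve.modularFunctionFieldBar N) u0)) with h2 | h2 | h2
    · exact h2
    · rw [← h2, mul_zero] at hpos2; exact absurd hpos2 (lt_irrefl _)
    · exact absurd hpos2 (not_lt.mpr (mul_nonpos_of_nonneg_of_nonpos hg0.le h2.le))

end Fermat.Agent.MZ
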