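/-
MAZUR / [MZ-A], cell [A-PLACE], part (c)+(d) (helper3, prefix `mza_plu_`): the modular unit
`Δ(τ)/Δ(pτ)` is a weakly holomorphic modular function of level `Γ₀(p)` (from the S28 toolkit
`tx_u`, `tx_fi_P_ufun_inv`), hence its `q`-expansion `modularUnitSeries p` (pushed to `Q̄`) is an
element `mza_plu_UB p` of `modularFunctionFieldBar p` (gateway degree count `gb_mem_field`), and it
is not a constant (pole of order `p - 1`).  The identification of the `q`-expansion is an explicit
hypothesis `mza_plu_QExp p` (cell (b)).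
-/
import Mathlib
import Fermat.Prelude.Def_ModularCurve_ModularUnit
import Fermat.Agent.MZ.A.Defs
import Fermat.Agent.MZ.A.Place.Abs
import Fermat.Agent.S28.Analytic.Units
import Fermat.Agent.JT3.Gateway.BarComplete

set_option autoImplicit false

noncomputable section

open UpperHalfPlane ModularForm CongruenceSubgroup
open scoped MatrixGroups Manifold

namespace Fermat.Agent.MZ

open Fermat.Agent.S24 Fermat.Agent.JT3 Fermat.Agent.S28 AlgebraicCurve
open Fermat.Agent.S23 (alphaN)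
open Fermat.Agent.S24.Br

local notation "Qb" => AlgebraicClosure ℚ

/-! ### from "meromorphic at the cusp in `exp (2πiz/N)`" to the growth condition -/

theorem mza_plu_growth_of_fi_P (N : ℕ) [NeZero N] {g : ℍ → ℂ} (hg : fi_P N g) :
    ∃ m : ℕ, IsBoundedAtImInfty (qH ^ m * g) := by
  obtain ⟨m, hq⟩ := hg
  refine ⟨m, ?_⟩
  obtain ⟨M, A, hMA⟩ := UpperHalfPlane.isBoundedAtImInfty_iff.mp hq.bdd
  rw [UpperHalfPlane.isBoundedAtImInfty_iff]
  refine ⟨M, (N : ℝ) * A, fun z hz => ?_⟩
  set τ : ℍ := (alphaN N)⁻¹ • z with hτ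
  have hz' : alphaN N • τ = z := smul_inv_smul (alphaN N) z
  have him : z.im = (N : ℝ) * τ.im := by rw [← hz', br_im_alphaN_smul]
  have hN : (0 : ℝ) < (N : ℝ) := Nat.cast_pos.mpr (Nat.pos_of_ne_zero (NeZero.ne N))
  have hτA : A ≤ τ.im := by
    rw [him] at hz
    exact le_of_mul_le_mul_left hz hN
  have h1 := hMA τ hτA
  simp only [Pi.mul_apply, Pi.pow_apply, hz'] at h1
  have hq1 : ‖qH τ‖ ≤ 1 := by
    rw [norm_qH]
    apply Real.exp_le_one_iff.mpr
    have : 0 < τ.im := τ.im_pos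
    nlinarith [Real.pi_pos]
  have hqz : qH z = qH τ ^ N := by rw [← hz', br_qH_alphaN_smul]
  simp only [Pi.mul_apply, Pi.pow_apply]
  rw [hqz, ← pow_mul]
  have hNm : N * m = (N - 1) * m + m := by
    have : 0 < N := Nat.pos_of_ne_zero (NeZero.ne N)
    rw [Nat.sub_mul, one_mul, Nat.sub_add_cancel (Nat.le_mul_of_pos_left m this)]
  rw [hNm, pow_add, mul_assoc, norm_mul, norm_pow]
  calc ‖qH τ‖ ^ ((N - 1) * m) * ‖qH τ ^ m * g z‖
      ≤ 1 * ‖qH τ ^ m * g z‖ :=
        mul_le_mul_of_nonneg_right (pow_le_one₀ (norm_nonneg _) hq1) (norm_nonneg _)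
    _ = ‖qH τ ^ m * g z‖ := one_mul _
    _ ≤ M := h1

/-! ### the analytic modular unit -/

variable (p : ℕ) [NeZero p]

theorem mza_plu_mulH_eq (τ : ℍ) : mza_mulH p τ = alphaN p • τ :=
  UpperHalfPlane.ext (by rw [mza_coe_mulH, Fermat.Agent.S23.coe_alphaN_smul])

theorem mza_plu_Uan_eq (τ : ℍ) : mza_Uan p τ = (p : ℂ) ^ 12 * (tx_u p τ)⁻¹ := by
  unfold mza_Uan tx_u
  rw [mza_plu_mulH_eq]
  have hp : (p : ℂ) ≠ 0 := Nat.cast_ne_zero.mpr (NeZero.ne p)
  have h1 := discriminant_ne_zero τ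
  have h2 := discriminant_ne_zero (alphaN p • τ)
  field_simp

/-- **the modular unit `Δ(τ)/Δ(pτ)` is a weakly holomorphic modular function of level `Γ₀(p)`** -/
theorem mza_plu_isWeakModFun : IsWeakModFun p (mza_Uan p) where
  mdiff := by
    have h1 : MDiff (fun z => (tx_ufun p 1 z)⁻¹) := tx_mdiff_ufun_inv p (dvd_refl p) 1
    have h2 : mza_Uan p = (fun _ => (p : ℂ) ^ 12) * fun z => (tx_ufun p 1 z)⁻¹ := by
      funext τ
      rw [mza_plu_Uan_eq, Pi.mul_apply]
      show _ = _ * (tx_u p ((1 : SL(2, ℤ)) • τ))⁻¹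
      rw [one_smul]
    rw [h2]
    exact mdifferentiable_const.mul h1
  inv := fun γ hγ z => by
    rw [mza_plu_Uan_eq, mza_plu_Uan_eq, tx_u_smul_of_mem_Gamma0 γ hγ]
  growth := fun γ => by
    obtain ⟨m, hm⟩ := mza_plu_growth_of_fi_P p (tx_fi_P_ufun_inv p (dvd_refl p) γ)
    refine ⟨m, ?_⟩
    have h2 : (qH ^ m * fun z => mza_Uan p (γ • z))
        = (fun _ => (p : ℂ) ^ 12) * (qH ^ m * fun z => (tx_ufun p γ z)⁻¹) := by
      funext z
      simp only [Pi.mul_apply, Pi.pow_apply]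
      rw [mza_plu_Uan_eq]
      show _ = _ * (_ * (tx_u p (γ • z))⁻¹)
      ring
    rw [h2]
    exact (Filter.const_boundedAtFilter atImInfty ((p : ℂ) ^ 12)).mul hm

/-! ### the element `UB` of the function field -/

/-- the `q`-expansion of the modular unit over `Q̄` -/
def mza_plu_series : LaurentSeries Qb :=
  ModularCurve.coeffEmb Qb (ModularCurve.modularUnitSeries p)

/-- **cell (b), as a hypothesis**: `Δ(τ)/Δ(pτ)` has the `q`-expansion `modularUnitSeries p`. -/
def mza_plu_QExp : Prop :=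
  br_HasLaurentQ (mza_Uan p)
    (ModularCurve.coeffMap (br_iota : Qb →+* ℂ) (mza_plu_series p))

variable {p}

theorem mza_plu_series_mem (hq : mza_plu_QExp p) :
    mza_plu_series p ∈ ModularCurve.modularFunctionFieldBar p :=
  gb_mem_field p (gb_mem_W.mpr ⟨mza_Uan p, mza_plu_isWeakModFun p, hq⟩)

/-- **the modular unit as an element of `Q̄(X₀(p))`** -/
def mza_plu_UB (hq : mza_plu_QExp p) : ModularCurve.modularFunctionFieldBar p :=
  ⟨mza_plu_series p, mza_plu_series_mem hq⟩

theorem mza_plu_coe_UB (hq : mza_plu_QExp p) :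
    ((mza_plu_UB hq : ModularCurve.modularFunctionFieldBar p) : LaurentSeries Qb)
      = ModularCurve.coeffEmb Qb (ModularCurve.modularUnitSeries p) := rfl

/-- the modular unit is not a constant (it has a pole of order `p - 1 > 0` at `∞`) -/
theorem mza_plu_UB_ne_const (hp : 2 ≤ p) (hq : mza_plu_QExp p) (u0 : Qb) :
    mza_plu_UB hq ≠ algebraMap Qb (ModularCurve.modularFunctionFieldBar p) u0 := by
  intro h
  have h1 := congrArg
    (fun z : ModularCurve.modularFunctionFieldBar p => (z : LaurentSeries Qb).coeff (1 - (p : ℤ))) h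
  simp only [mza_plu_coe_UB, ModularCurve.coeffEmb_coeff,
    ModularCurve.coeff_modularUnitSeries_self, map_one] at h1
  have h2 : ((algebraMap Qb (ModularCurve.modularFunctionFieldBar p) u0 :
      ModularCurve.modularFunctionFieldBar p) : LaurentSeries Qb)
      = algebraMap Qb (LaurentSeries Qb) u0 := rfl
  rw [h2, ModularCurve.algebraMap_laurentSeries_eq_single, HahnSeries.coeff_single_of_ne] at h1
  · exact one_ne_zero h1
  · have : (2 : ℤ) ≤ (p : ℤ) := by exact_mod_cast hp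
    omega

/-- **[A-PLACE] given the `q`-expansion (b)**: the place of `Q̄(X₀(p))` at `τ`. -/
theorem mza_plu_main (hp : 2 ≤ p) (hq : mza_plu_QExp p) (τ : ℍ) (j0 u0 : Qb)
    (hj : br_iota j0 = kleinJ τ) (hu : br_iota u0 = mza_Uan p τ) :
    ∃ x : Place Qb (ModularCurve.modularFunctionFieldBar p),
      0 < x.ord (ff_jF p - algebraMap Qb (ModularCurve.modularFunctionFieldBar p) j0) ∧
      0 < x.ord (mza_plu_UB hq - algebraMap Qb (ModularCurve.modularFunctionFieldBar p) u0) :=
  mza_pl_abs p (mza_plu_UB hq) (mza_Uan p) hq τ j0 u0 hj hu (mza_plu_UB_ne_const hp hq u0)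

end Fermat.Agent.MZ
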