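/-
MAZUR / [MZ-A] / cell [A-PLACE] (owner helper27): FINAL FILE OF THE CELL.

* `mza_UB p : modularFunctionFieldBar p`  : the modular unit `Δ(q)/Δ(q^p)` as an element of
  `Q̄(X₀(p))`; its underlying Laurent series is `coeffEmb Q̄ (modularUnitSeries p)` (`mza_UB_coe`,
  by `rfl`);
* `mza_jB p : modularFunctionFieldBar p`  : the function `j` (`= ff_jF p`), underlying series
  `coeffEmb Q̄ (qExpand ℚ 1 jq)`;
* `mza_pl_main` : for `τ ∈ ℍ`, `ι j0 = j(τ)`, `ι u0 = Δ(τ)/Δ(pτ)` (`ι = br_iota : Q̄ → ℂ`) there is a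
  place `x` of `Q̄(X₀(p))` with `0 < x.ord (jB - j0)` and `0 < x.ord (UB - u0)`  (`p ≥ 2`);
* `mza_pl_weak` : `Δ(τ)/Δ(pτ)` is a weakly holomorphic modular function of level `Γ₀(p)`;
  `mza_pl_qexp` : its `q`-expansion is `modularUnitSeries p`.

Assembly of: helper3's `MZ/A/Place/{Abs,Unit}.lean` (Taylor-germ place, `IsWeakModFun`, membership
through `gb_mem_field`) and `MZ/A/Place/UnitQ.lean` (the `q`-expansion).
-/
import Mathlib
import Fermat.Agent.MZ.A.Place.Unit
import Fermat.Agent.MZ.A.Place.UnitQ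

set_option autoImplicit false

noncomputable section

open UpperHalfPlane
open scoped MatrixGroups Manifold

namespace Fermat.Agent.MZ

open Fermat.Agent.S24 Fermat.Agent.JT3 AlgebraicCurve
open Fermat.Agent.S24.Br

local notation "Qb" => AlgebraicClosure ℚ

variable (p : ℕ) [NeZero p]

/-- cell (b): the `q`-expansion of the analytic modular unit -/
theorem mza_pl_qexp : mza_plu_QExp p := mza_plq_U_bar p

/-- `Δ(τ)/Δ(pτ)` is a weakly holomorphic modular function of level `Γ₀(p)` -/
theorem mza_pl_weak : IsWeakModFun p (mza_Uan p) := mza_plu_isWeakModFun p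

/-- **the modular unit `Δ(q)/Δ(q^p)` as an element of `Q̄(X₀(p))`** -/
def mza_UB : ModularCurve.modularFunctionFieldBar p := mza_plu_UB (mza_pl_qexp p)

theorem mza_UB_coe :
    ((mza_UB p : ModularCurve.modularFunctionFieldBar p) : LaurentSeries Qb)
      = ModularCurve.coeffEmb Qb (ModularCurve.modularUnitSeries p) := rfl

/-- **the function `j` as an element of `Q̄(X₀(p))`** -/
def mza_jB : ModularCurve.modularFunctionFieldBar p := ff_jF p

theorem mza_jB_coe :
    ((mza_jB p : ModularCurve.modularFunctionFieldBar p) : LaurentSeries Qb)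
      = ModularCurve.coeffEmb Qb (ModularCurve.qExpand ℚ 1 ModularCurve.jq) := rfl

/-- the analytic realisation of `UB` -/
theorem mza_UB_laurentQ :
    br_HasLaurentQ (mza_Uan p)
      (ModularCurve.coeffMap (br_iota : Qb →+* ℂ)
        ((mza_UB p : ModularCurve.modularFunctionFieldBar p) : LaurentSeries Qb)) :=
  mza_pl_qexp p

/-- `UB` is not a constant -/
theorem mza_UB_ne_const (hp : 2 ≤ p) (u0 : Qb) :
    mza_UB p ≠ algebraMap Qb (ModularCurve.modularFunctionFieldBar p) u0 :=
  mza_plu_UB_ne_const hp (mza_pl_qexp p) u0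

/-- **[A-PLACE]**: the modular point of `τ` on `X₀(p)` as a place of `Q̄(X₀(p))`. -/
theorem mza_pl_main (hp : 2 ≤ p) (τ : ℍ) (j0 u0 : Qb)
    (hj : br_iota j0 = kleinJ τ) (hu : br_iota u0 = mza_Uan p τ) :
    ∃ x : Place Qb (ModularCurve.modularFunctionFieldBar p),
      0 < x.ord (mza_jB p - algebraMap Qb (ModularCurve.modularFunctionFieldBar p) j0) ∧
      0 < x.ord (mza_UB p - algebraMap Qb (ModularCurve.modularFunctionFieldBar p) u0) :=
  mza_plu_main hp (mza_pl_qexp p) τ j0 u0 hj hu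

end Fermat.Agent.MZ
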