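/-
MAZUR / [MZ-A] / cell [A-PLACE] (owner helper27), part (b): the analytic modular unit
`mza_Uan p = Δ(τ)/Δ(pτ)` has the Laurent `q`-expansion `modularUnitSeries p` (the prelude's formal
modular unit), in the sense of S24's `br_HasLaurentQ`.

* `mza_plq_delta`  : `Δ` has the Laurent expansion `deltaSeries`;
* `mza_plq_mulH`   : `mza_mulH p z = alphaN p • z`;
* `mza_plq_U`      : `mza_Uan p` has the Laurent expansion `modularUnitSeries p` (coefficients
                     mapped along `ℚ → ℂ`);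
* `mza_plq_U_bar`  : the same, spelled through `Q̄` (`coeffMap br_iota (coeffEmb Q̄ _)`), the form
                     consumed by `gb_W` / `gb_mem_field` and by the place construction.

Prefix `mza_plq_`, namespace `Fermat.Agent.MZ`.
-/
import Mathlib
import Fermat.Prelude.Def_ModularCurve_ModularUnit
import Fermat.Agent.S24.Bridge.Field
import Fermat.Agent.MZ.A.Defs

set_option autoImplicit false

open UpperHalfPlane ModularForm Filter Topology Function Complex
open scoped MatrixGroups Manifold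
open Fermat.Agent.S23.QF (IsQFun)
open Fermat.Agent.S23 (alphaN)
open Fermat.Agent.S24
open ModularCurve

namespace Fermat.Agent.MZ

noncomputable section

/-- `∏ (1 - qⁿ)²⁴` as a Laurent series over `ℂ` -/
def mza_plq_eta : LaurentSeries ℂ :=
  HahnSeries.ofPowerSeries ℤ ℂ (dedekindEtaUnit.map (Int.castRingHom ℂ))

/-- `deltaSeries` with complex coefficients -/
def mza_plq_deltaC : LaurentSeries ℂ := coeffMap (algebraMap ℚ ℂ) deltaSeries

theorem mza_plq_deltaC_eq :
    mza_plq_deltaC = HahnSeries.single (1 : ℤ) (1 : ℂ) * mza_plq_eta := by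
  rw [mza_plq_deltaC, deltaSeries, map_mul, coeffMap_single, map_one, br_coeffMap_ofPowerSeries,
    dedekindEtaUnitQ, mza_plq_eta]
  have h : (dedekindEtaUnit.map (Int.castRingHom ℚ)).map (algebraMap ℚ ℂ)
      = dedekindEtaUnit.map (Int.castRingHom ℂ) := by
    ext n
    simp [PowerSeries.coeff_map]
  rw [h]

theorem mza_plq_discriminant_eq : (ModularForm.discriminant : ℍ → ℂ) = qH * etaProdH := by
  ext z
  simp only [Pi.mul_apply, etaProdH, Pi.div_apply]
  field_simp [qH_ne_zero z]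

theorem mza_plq_ofPowerSeries_etaProdH :
    HahnSeries.ofPowerSeries ℤ ℂ (qExpansion 1 etaProdH) = mza_plq_eta := by
  rw [br_qExpansion_etaProdH, mza_plq_eta]

/-- `Δ` has the Laurent `q`-expansion `deltaSeries`. -/
theorem mza_plq_delta : br_HasLaurentQ (ModularForm.discriminant : ℍ → ℂ) mza_plq_deltaC := by
  refine ⟨0, ?_, ?_⟩
  · rw [pow_zero, one_mul, mza_plq_discriminant_eq]
    exact isQFun_qH.mul isQFun_etaProdH
  · rw [pow_zero, one_mul, mza_plq_discriminant_eq,
      qExpansion_mul isQFun_qH.analyticAt isQFun_etaProdH.analyticAt, br_qExpansion_qH, map_mul,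
      HahnSeries.ofPowerSeries_X, mza_plq_ofPowerSeries_etaProdH, mza_plq_deltaC_eq]
    simp only [Nat.cast_zero]
    rw [show (HahnSeries.single (0 : ℤ) (1 : ℂ) : LaurentSeries ℂ) = 1 from rfl, one_mul]

theorem mza_plq_mulH (p : ℕ) [NeZero p] (z : ℍ) : mza_mulH p z = alphaN p • z := by
  apply UpperHalfPlane.ext
  rw [Fermat.Agent.S23.coe_alphaN_smul, mza_coe_mulH]

theorem mza_plq_tendsto_alphaN (p : ℕ) [NeZero p] :
    Tendsto (fun z : ℍ => alphaN p • z) atImInfty atImInfty := by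
  rw [atImInfty, tendsto_comap_iff]
  have h : (UpperHalfPlane.im ∘ fun z : ℍ => alphaN p • z) = fun z : ℍ => (p : ℝ) * z.im := by
    funext z
    exact br_im_alphaN_smul p z
  rw [h]
  have hp : (0 : ℝ) < p := by exact_mod_cast Nat.pos_of_ne_zero (NeZero.ne p)
  exact (tendsto_comap (f := UpperHalfPlane.im) (x := atTop)).const_mul_atTop hp

/-- `∏ (1 - q^{pn})²⁴` as a function on `ℍ` -/
def mza_plq_Ep (p : ℕ) [NeZero p] : ℍ → ℂ := fun z => etaProdH (alphaN p • z)

theorem mza_plq_isQFun_Ep (p : ℕ) [NeZero p] : IsQFun (mza_plq_Ep p) :=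
  br_isQFun_comp_alphaN p isQFun_etaProdH

theorem mza_plq_Ep_ne_zero (p : ℕ) [NeZero p] (z : ℍ) : mza_plq_Ep p z ≠ 0 :=
  etaProdH_ne_zero _

theorem mza_plq_valueAtInfty_Ep (p : ℕ) [NeZero p] : valueAtInfty (mza_plq_Ep p) = 1 :=
  IsQFun.valueAtInfty_eq (mza_plq_isQFun_Ep p) (tendsto_etaProdH.comp (mza_plq_tendsto_alphaN p))

theorem mza_plq_isQFun_quot (p : ℕ) [NeZero p] : IsQFun (etaProdH / mza_plq_Ep p) :=
  IsQFun.div isQFun_etaProdH (mza_plq_isQFun_Ep p) (mza_plq_Ep_ne_zero p)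
    (by rw [mza_plq_valueAtInfty_Ep]; exact one_ne_zero)

/-- `q^(p-1) · U = ∏(1-qⁿ)²⁴ / ∏(1-q^{pn})²⁴` -/
theorem mza_plq_qH_pow_mul_U (p : ℕ) [NeZero p] :
    qH ^ (p - 1) * mza_Uan p = etaProdH / mza_plq_Ep p := by
  ext z
  have hp : 1 ≤ p := Nat.one_le_iff_ne_zero.mpr (NeZero.ne p)
  have h1 : ModularForm.discriminant z = qH z * etaProdH z := congrFun mza_plq_discriminant_eq z
  have h2 : ModularForm.discriminant (mza_mulH p z) = qH z ^ p * mza_plq_Ep p z := by
    rw [mza_plq_mulH, congrFun mza_plq_discriminant_eq (alphaN p • z), Pi.mul_apply,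
      br_qH_alphaN_smul, mza_plq_Ep]
  have h3 : qH z ^ p = qH z ^ (p - 1) * qH z := by
    rw [← pow_succ, Nat.sub_add_cancel hp]
  simp only [Pi.mul_apply, Pi.pow_apply, Pi.div_apply, mza_Uan]
  rw [h1, h2, h3]
  have hq := qH_ne_zero z
  have hE := mza_plq_Ep_ne_zero p z
  field_simp

/-- the modular unit series with complex coefficients -/
def mza_plq_UC (p : ℕ) [NeZero p] : LaurentSeries ℂ :=
  coeffMap (algebraMap ℚ ℂ) (modularUnitSeries p)

theorem mza_plq_UC_mul (p : ℕ) [NeZero p] :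
    mza_plq_UC p * qExpand ℂ p mza_plq_deltaC = mza_plq_deltaC := by
  rw [mza_plq_UC, mza_plq_deltaC, ← coeffMap_qExpand, ← map_mul, ← deltaSeriesN,
    modularUnitSeries_mul_deltaSeriesN]

theorem mza_plq_qExpand_deltaC_ne_zero (p : ℕ) [NeZero p] : qExpand ℂ p mza_plq_deltaC ≠ 0 := by
  rw [mza_plq_deltaC, ← coeffMap_qExpand, ← deltaSeriesN]
  intro h
  exact deltaSeriesN_ne_zero p
    (br_coeffMap_injective (algebraMap ℚ ℂ) (algebraMap ℚ ℂ).injective (by rw [h, map_zero]))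

theorem mza_plq_qExpand_deltaC (p : ℕ) [NeZero p] :
    qExpand ℂ p mza_plq_deltaC = HahnSeries.single (p : ℤ) (1 : ℂ) * qExpand ℂ p mza_plq_eta := by
  rw [mza_plq_deltaC_eq, map_mul, qExpand_single, mul_one]

/-- **the analytic modular unit has the `q`-expansion `modularUnitSeries p`.** -/
theorem mza_plq_U (p : ℕ) [NeZero p] : br_HasLaurentQ (mza_Uan p) (mza_plq_UC p) := by
  have hp : 1 ≤ p := Nat.one_le_iff_ne_zero.mpr (NeZero.ne p)
  refine ⟨p - 1, by rw [mza_plq_qH_pow_mul_U]; exact mza_plq_isQFun_quot p, ?_⟩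
  rw [mza_plq_qH_pow_mul_U]
  -- `V · E_p = E` on the level of expansions
  have hV : (etaProdH / mza_plq_Ep p) * mza_plq_Ep p = etaProdH := by
    ext z
    simp only [Pi.mul_apply, Pi.div_apply]
    exact div_mul_cancel₀ _ (mza_plq_Ep_ne_zero p z)
  have h1 : HahnSeries.ofPowerSeries ℤ ℂ (qExpansion 1 ((etaProdH / mza_plq_Ep p) * mza_plq_Ep p))
      = HahnSeries.ofPowerSeries ℤ ℂ (qExpansion 1 etaProdH) := by rw [hV]
  rw [qExpansion_mul (mza_plq_isQFun_quot p).analyticAt (mza_plq_isQFun_Ep p).analyticAt, map_mul,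
    mza_plq_ofPowerSeries_etaProdH] at h1
  have h2 : HahnSeries.ofPowerSeries ℤ ℂ (qExpansion 1 (mza_plq_Ep p)) =
      qExpand ℂ p mza_plq_eta := by
    unfold mza_plq_Ep
    rw [br_ofPowerSeries_comp_alphaN p isQFun_etaProdH, mza_plq_ofPowerSeries_etaProdH]
  rw [h2] at h1
  -- cancel `qExpand p Δ`
  apply mul_right_cancel₀ (mza_plq_qExpand_deltaC_ne_zero p)
  rw [mul_assoc, mza_plq_UC_mul, mza_plq_qExpand_deltaC, mza_plq_deltaC_eq]
  calc HahnSeries.ofPowerSeries ℤ ℂ (qExpansion 1 (etaProdH / mza_plq_Ep p)) *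
        (HahnSeries.single (p : ℤ) (1 : ℂ) * qExpand ℂ p mza_plq_eta)
      = HahnSeries.single (p : ℤ) (1 : ℂ) *
          (HahnSeries.ofPowerSeries ℤ ℂ (qExpansion 1 (etaProdH / mza_plq_Ep p)) *
            qExpand ℂ p mza_plq_eta) := by ring
    _ = HahnSeries.single (p : ℤ) (1 : ℂ) * mza_plq_eta := by rw [h1]
    _ = HahnSeries.single (((p - 1 : ℕ) : ℤ) + 1) (1 : ℂ) * mza_plq_eta := by
        congr 3
        push_cast [Nat.cast_sub hp]
        ring
    _ = HahnSeries.single ((p - 1 : ℕ) : ℤ) (1 : ℂ) *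
          (HahnSeries.single (1 : ℤ) (1 : ℂ) * mza_plq_eta) := by
        rw [← br_single_mul_single, mul_assoc]

/-- the same through `Q̄` -/
theorem mza_plq_U_bar (p : ℕ) [NeZero p] :
    br_HasLaurentQ (mza_Uan p)
      (coeffMap (br_iota : AlgebraicClosure ℚ →+* ℂ)
        (coeffEmb (AlgebraicClosure ℚ) (modularUnitSeries p))) := by
  rw [br_coeffMap_iota_coeffEmb]
  exact mza_plq_U p

/-- `Δ` through `Q̄` -/
theorem mza_plq_delta_bar :
    br_HasLaurentQ (ModularForm.discriminant : ℍ → ℂ)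
      (coeffMap (br_iota : AlgebraicClosure ℚ →+* ℂ)
        (coeffEmb (AlgebraicClosure ℚ) deltaSeries)) := by
  rw [br_coeffMap_iota_coeffEmb]
  exact mza_plq_delta

end

end Fermat.Agent.MZ
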