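/-
MAZUR / [MZ-A] / [A-PLACE], cell "Germ" (helper6).  Prefix `mza_plg_`, namespace `Fermat.Agent.MZ`.

The place of `Fbar N = modularFunctionFieldBar N` attached to a point `τ ∈ ℍ`: pull back the
`t`-adic valuation along the Taylor-germ embedding `ff_phi N τ 1 : Fbar N →ₐ[Q̄] ℂ((t))` of S24.

Main point: an element `u ∈ Fbar N` whose Laurent `q`-expansion (pushed to `ℂ` along `br_iota`)
is the `q`-expansion of a holomorphic `g : ℍ → ℂ` is sent to the Taylor germ of `g` at `τ`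
(`mza_plg_phi_of_laurentQ`), even when `u` is not in the algebra `A0 N = Q̄[j(dz) : d ∣ N]`:
write `u = a / b`; then `an a = g · an b` as functions by uniqueness of `q`-expansions and germs
are multiplicative.

`mza_plg_main`: if `ι j0 = j(τ)` and `ι u0 = g(τ)`, `u ≠ u0`, there is a place `x` of `Fbar N`
with `0 < x.ord (j - j0)` and `0 < x.ord (u - u0)`.
-/
import Mathlib
import Fermat.Agent.S24.FamilyFinite
import Fermat.Agent.S24.Bridge.Degree
import Fermat.Agent.S24.PlacesOrbits.PlaceOfEmb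

set_option autoImplicit false

open UpperHalfPlane
open scoped MatrixGroups Manifold
open Fermat.Agent.S24 Fermat.Agent.S24.Br AlgebraicCurve

namespace Fermat.Agent.MZ

variable (N : ℕ) [NeZero N]

/-- the Taylor-germ embedding at `τ` (coset of `1`) -/
noncomputable def mza_plg_phi (τ : ℍ) : Fbar N →ₐ[Kbar] LaurentSeries ℂ :=
  ff_phi N τ (((1 : SL(2, ℤ)) : SL(2, ℤ)) : Comb.Q N)

theorem mza_plg_an_mdiff (a : A0 N) : MDiff (ff_an N a) := by
  have h := (ff_isRealisation N).adm a 1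
  simpa using h

theorem mza_plg_phi_algebraMap (τ : ℍ) (a : A0 N) :
    mza_plg_phi N τ (algebraMap (A0 N) (Fbar N) a) = ff_germ τ (ff_an N a) := by
  rw [mza_plg_phi, ff_phi, fam_phi_mk_algebraMap]
  congr 1
  ext z
  simp

/-- an element of `Fbar N` with the `q`-expansion of a holomorphic function `g` has germ `germ g` -/
theorem mza_plg_phi_of_laurentQ (τ : ℍ) (u : Fbar N) (g : ℍ → ℂ)
    (hg : br_HasLaurentQ g
      (ModularCurve.coeffMap (br_iota : Kbar →+* ℂ) ((u : Fbar N) : LaurentSeries Kbar))) :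
    mza_plg_phi N τ u = ff_germ τ g := by
  obtain ⟨a, b, hb, hu⟩ := IsFractionRing.div_surjective (A := A0 N) u
  have hb0 : b ≠ 0 := nonZeroDivisors.ne_zero hb
  have hbF : algebraMap (A0 N) (Fbar N) b ≠ 0 := by
    intro h
    exact hb0 ((IsFractionRing.injective (A0 N) (Fbar N)) (h.trans (map_zero _).symm))
  -- `u * b = a` on Laurent series
  have h1 : u * algebraMap (A0 N) (Fbar N) b = algebraMap (A0 N) (Fbar N) a := by
    rw [← hu, div_mul_cancel₀ _ hbF]
  have h2 : ((u : Fbar N) : LaurentSeries Kbar) * ((b : A0 N) : LaurentSeries Kbar)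
      = ((a : A0 N) : LaurentSeries Kbar) := by
    have := congrArg (fun z : Fbar N => (z : LaurentSeries Kbar)) h1
    simpa [br_algebraMap_A0F] using this
  have h3 : br_HasLaurentQ (g * ff_an N b)
      (ModularCurve.coeffMap (br_iota : Kbar →+* ℂ) ((a : A0 N) : LaurentSeries Kbar)) := by
    have := hg.mul (br_an_spec N b)
    rw [← map_mul, h2] at this
    exact this
  have h4 : ff_an N a = g * ff_an N b := (br_an_spec N a).unique_left h3
  have hgm : MDiff g := hg.mdiff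
  have h5 : mza_plg_phi N τ (algebraMap (A0 N) (Fbar N) a)
      = ff_germ τ g * mza_plg_phi N τ (algebraMap (A0 N) (Fbar N) b) := by
    rw [mza_plg_phi_algebraMap, mza_plg_phi_algebraMap, h4]
    exact (ff_isGerm τ).mul g (ff_an N b) hgm (mza_plg_an_mdiff N b)
  have hφb : mza_plg_phi N τ (algebraMap (A0 N) (Fbar N) b) ≠ 0 :=
    (map_ne_zero (mza_plg_phi N τ)).mpr hbF
  rw [← hu, map_div₀, h5, mul_div_assoc, div_self hφb, mul_one]

/-- positivity of the order of the germ of a nonzero holomorphic function vanishing at `τ` -/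
theorem mza_plg_order_pos (τ : ℍ) {h : ℍ → ℂ} (hh : MDiff h) (h0 : h τ = 0) (hne : h ≠ 0) :
    0 < (ff_germ τ h).order := by
  have hx : gm_taylor τ h ≠ 0 := fun H => hne ((gm_taylor_eq_zero_iff τ hh).mp H)
  obtain ⟨e, he⟩ : ∃ e : ℕ, (gm_taylor τ h).order = e := by
    have hlt := (PowerSeries.order_finite_iff_ne_zero).mpr hx
    exact ⟨_, (ENat.natCast_toNat hlt.ne).symm⟩
  rw [ff_germ, ff_ofPowerSeries_order _ he]
  have h1 := PowerSeries.order_eq_nat.mp he
  have he0 : e ≠ 0 := by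
    rintro rfl
    apply h1.1
    rw [gm_taylor_coeff_zero τ hh, h0]
  exact_mod_cast Nat.pos_of_ne_zero he0

theorem mza_plg_germ_sub (τ : ℍ) {f g : ℍ → ℂ} (hf : MDiff f) (hg : MDiff g) :
    ff_germ τ (f - g) = ff_germ τ f - ff_germ τ g := by
  simp only [ff_germ, gm_taylor_sub τ hf hg, map_sub]

/-- the germ of `j - j0` at `τ`, `ι j0 = j(τ)` -/
theorem mza_plg_phi_j (τ : ℍ) (j0 : Kbar) (hj : br_iota j0 = kleinJ τ) :
    mza_plg_phi N τ (ff_jF N - algebraMap Kbar (Fbar N) j0)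
      = ff_germ τ (fun z => kleinJ z - kleinJ τ) :=
  ff_phi_sub N τ j0 hj _

theorem mza_plg_order_j_pos (τ : ℍ) :
    0 < (ff_germ τ (fun z => kleinJ z - kleinJ τ)).order := by
  refine mza_plg_order_pos τ (kleinJ_mdiff.sub mdifferentiable_const) (sub_self _) ?_
  intro h
  obtain ⟨z, hz⟩ := jl_exists_kleinJ_eq (kleinJ τ + 1)
  have := congrFun h z
  simp only [Pi.zero_apply, hz, add_sub_cancel_left] at this
  exact one_ne_zero this

/-- from the order along `φ` to the prelude `Place.ord` -/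
theorem mza_plg_ord_pos (τ : ℍ) (hφ : ∃ f : Fbar N, 0 < po_ord (mza_plg_phi N τ) f) {f : Fbar N}
    (hf : 0 < (mza_plg_phi N τ f).order) : 0 < (po_place (mza_plg_phi N τ) hφ).ord f := by
  obtain ⟨ϖ, hϖ⟩ := IsDiscreteValuationRing.exists_irreducible
    (po_place (mza_plg_phi N τ) hφ).toValuationSubring
  have h1 := po_ord_eq_mul_ord (mza_plg_phi N τ) hφ (ϖ := ϖ) hϖ f
  have h2 := po_ord_irreducible_pos (mza_plg_phi N τ) (ϖ := ϖ) hϖ
  rw [po_ord_def] at h1
  by_contra hneg
  rw [not_lt] at hneg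
  nlinarith

/-- the germ of `u - u0` at `τ`, `ι u0 = g(τ)` -/
theorem mza_plg_phi_u (τ : ℍ) (u : Fbar N) (g : ℍ → ℂ)
    (hg : br_HasLaurentQ g
      (ModularCurve.coeffMap (br_iota : Kbar →+* ℂ) ((u : Fbar N) : LaurentSeries Kbar)))
    (u0 : Kbar) (hu : br_iota u0 = g τ) :
    mza_plg_phi N τ (u - algebraMap Kbar (Fbar N) u0) = ff_germ τ (fun z => g z - g τ) := by
  rw [map_sub, mza_plg_phi_of_laurentQ N τ u g hg, po_map_algebraMap, br_algebraMap_QbarC, hu,
    ← (ff_isGerm τ).const (g τ), ← mza_plg_germ_sub τ hg.mdiff mdifferentiable_const]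
  rfl

/-- **[A-PLACE], abstract form.**  `τ ∈ ℍ`, `ι j0 = j(τ)`; `u ∈ Fbar N` has the `q`-expansion of the
holomorphic function `g`, `ι u0 = g(τ)`, `u ≠ u0`.  Then some place `x` of `Fbar N` is a common
zero of `j - j0` and `u - u0`. -/
theorem mza_plg_main (τ : ℍ) (j0 : Kbar) (hj : br_iota j0 = kleinJ τ) (u : Fbar N) (g : ℍ → ℂ)
    (hg : br_HasLaurentQ g
      (ModularCurve.coeffMap (br_iota : Kbar →+* ℂ) ((u : Fbar N) : LaurentSeries Kbar)))
    (u0 : Kbar) (hu : br_iota u0 = g τ) (hne : u ≠ algebraMap Kbar (Fbar N) u0) :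
    ∃ x : Place Kbar (Fbar N), 0 < x.ord (ff_jF N - algebraMap Kbar (Fbar N) j0) ∧
      0 < x.ord (u - algebraMap Kbar (Fbar N) u0) := by
  have hjpos : 0 < (mza_plg_phi N τ (ff_jF N - algebraMap Kbar (Fbar N) j0)).order := by
    rw [mza_plg_phi_j N τ j0 hj]
    exact mza_plg_order_j_pos τ
  have hφ : ∃ f : Fbar N, 0 < po_ord (mza_plg_phi N τ) f := ⟨_, hjpos⟩
  refine ⟨po_place (mza_plg_phi N τ) hφ, mza_plg_ord_pos N τ hφ hjpos, mza_plg_ord_pos N τ hφ ?_⟩
  rw [mza_plg_phi_u N τ u g hg u0 hu]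
  refine mza_plg_order_pos τ (hg.mdiff.sub mdifferentiable_const) (sub_self _) ?_
  intro h0
  apply hne
  have h1 : mza_plg_phi N τ (u - algebraMap Kbar (Fbar N) u0) = 0 := by
    rw [mza_plg_phi_u N τ u g hg u0 hu, h0]
    have h2 : ff_germ τ (fun _ : ℍ => (0 : ℂ)) = 0 := by
      rw [(ff_isGerm τ).const 0, map_zero]
    exact h2
  exact sub_eq_zero.mp ((map_eq_zero (mza_plg_phi N τ)).mp h1)

omit [NeZero N] in
/-- an element of `Fbar N` whose `q`-expansion has nonzero order is not a constant -/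
theorem mza_plg_ne_const (u : Fbar N) (hord : ((u : Fbar N) : LaurentSeries Kbar).order ≠ 0)
    (u0 : Kbar) : u ≠ algebraMap Kbar (Fbar N) u0 := by
  rintro rfl
  apply hord
  show (algebraMap Kbar (LaurentSeries Kbar) u0).order = 0
  rw [ModularCurve.algebraMap_laurentSeries_eq_single]
  by_cases h : u0 = 0
  · subst h; simp
  · exact HahnSeries.order_single h

/-- **[A-PLACE], abstract form, for functions with a pole or zero at `∞`** (e.g. the modular unit
`Δ(z)/Δ(pz)`, of `q`-order `1 - p`). -/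
theorem mza_plg_main' (τ : ℍ) (j0 : Kbar) (hj : br_iota j0 = kleinJ τ) (u : Fbar N) (g : ℍ → ℂ)
    (hg : br_HasLaurentQ g
      (ModularCurve.coeffMap (br_iota : Kbar →+* ℂ) ((u : Fbar N) : LaurentSeries Kbar)))
    (hord : ((u : Fbar N) : LaurentSeries Kbar).order ≠ 0)
    (u0 : Kbar) (hu : br_iota u0 = g τ) :
    ∃ x : Place Kbar (Fbar N), 0 < x.ord (ff_jF N - algebraMap Kbar (Fbar N) j0) ∧
      0 < x.ord (u - algebraMap Kbar (Fbar N) u0) :=
  mza_plg_main N τ j0 hj u g hg u0 hu (mza_plg_ne_const N u hord u0)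

end Fermat.Agent.MZ
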