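/-
MAZUR / [MZ-A] / cell [A-PLACE] (owner helper27): the closing lemma.

For ANY element `UB` of `Fbar p = modularFunctionFieldBar p` whose underlying Laurent series is the
prelude's modular unit `coeffEmb Q̄ (modularUnitSeries p)` (`p ≥ 2`), and any `τ ∈ ℍ`,
`ι j0 = j(τ)`, `ι u0 = Δ(τ)/Δ(pτ)`: there is a place `x` of `Fbar p` with
`0 < x.ord (j - j0)` and `0 < x.ord (UB - u0)`.

= helper6's `mza_plg_main'` (MZ/A/Place/Germ.lean) + `mza_plq_U_bar` (MZ/A/Place/UnitQ.lean) +
the order `1 - p ≠ 0` of the modular unit series.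

Prefix `mza_plc_`, namespace `Fermat.Agent.MZ`.
-/
import Mathlib
import Fermat.Agent.MZ.A.Place.Germ
import Fermat.Agent.MZ.A.Place.UnitQ

set_option autoImplicit false

open UpperHalfPlane
open scoped MatrixGroups Manifold
open Fermat.Agent.S24 Fermat.Agent.S24.Br AlgebraicCurve ModularCurve

namespace Fermat.Agent.MZ

/-- coefficientwise injective maps preserve the order of a Laurent series -/
theorem mza_plc_order_coeffMap {R S : Type*} [CommRing R] [CommRing S] {φ : R →+* S}
    (hφ : Function.Injective φ) (x : LaurentSeries R) : (coeffMap φ x).order = x.order := by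
  by_cases hx : x = 0
  · rw [hx, map_zero, HahnSeries.order_zero, HahnSeries.order_zero]
  have hx' : coeffMap φ x ≠ 0 := fun h =>
    hx (br_coeffMap_injective φ hφ (by rw [h, map_zero]))
  apply le_antisymm
  · apply HahnSeries.order_le_of_coeff_ne_zero
    rw [coeffMap_coeff]
    intro h
    exact hx (HahnSeries.coeff_order_eq_zero.mp (hφ (h.trans (map_zero φ).symm)))
  · apply HahnSeries.order_le_of_coeff_ne_zero
    intro h
    apply hx'
    apply HahnSeries.coeff_order_eq_zero.mp
    rw [coeffMap_coeff, h, map_zero]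

/-- the `q`-order of the modular unit over `Q̄` is `1 - p` -/
theorem mza_plc_order_unit (p : ℕ) [NeZero p] :
    (coeffEmb Kbar (modularUnitSeries p)).order = 1 - (p : ℤ) := by
  rw [coeffEmb, mza_plc_order_coeffMap (algebraMap ℚ Kbar).injective, order_modularUnitSeries]

/-- **[A-PLACE], closing lemma**: the modular point of `τ` on `X₀(p)` as a place of `Fbar p`, seen
through `j` and any element `UB` with the `q`-expansion of the modular unit. -/
theorem mza_plc_close (p : ℕ) [NeZero p] (hp2 : 2 ≤ p) (UB : Fbar p)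
    (hUB : ((UB : Fbar p) : LaurentSeries Kbar) = coeffEmb Kbar (modularUnitSeries p))
    (τ : ℍ) (j0 u0 : Kbar) (hj : br_iota j0 = kleinJ τ) (hu : br_iota u0 = mza_Uan p τ) :
    ∃ x : Place Kbar (Fbar p), 0 < x.ord (ff_jF p - algebraMap Kbar (Fbar p) j0) ∧
      0 < x.ord (UB - algebraMap Kbar (Fbar p) u0) := by
  refine mza_plg_main' p τ j0 hj UB (mza_Uan p) ?_ ?_ u0 hu
  · rw [hUB]
    exact mza_plq_U_bar p
  · rw [hUB, mza_plc_order_unit]
    have : (2 : ℤ) ≤ (p : ℤ) := by exact_mod_cast hp2
    omega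

end Fermat.Agent.MZ
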