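/-
MAZUR / [MZ-A] / cell [A-PLACE] (owner helper27): [A-PLACE] in the vocabulary of the seam
`mza_stmt` (MZ/B/Seams.lean, helper16): `mzb_jB p`, `mzb_Umem p`, `mzb_UB p hU`.

* `mza_pls_Umem p : mzb_Umem p`       : `U = Δ(q)/Δ(q^p) ∈ Q̄(X₀(p))`   (UNCONDITIONAL; it is the
                                         witness `∃ hU : mzb_Umem p` of `mzb_CD_stmt`);
* `mza_pls_jB_eq`, `mza_pls_UB_eq`    : `mzb_jB p = mza_jB p`, `mzb_UB p hU = mza_UB p`;
* `mza_pls_main`                      : for `τ ∈ ℍ`, `ι j0 = j(τ)`, `ι u0 = Δ(τ)/Δ(pτ)` and ANY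
  `hU : mzb_Umem p` there is a place `x` with `0 < x.ord (mzb_jB p - j0)` and
  `0 < x.ord (mzb_UB p hU - u0)`;
* `mza_pls_stmt_of_point`             : `mza_stmt` from the analytic statement "every `(W, Q)` with
  `Q` of exact order `p` comes from a point `τ'`" (the output `mza_rd_main` of [A-ASM]).

Prefix `mza_pls_`, namespace `Fermat.Agent.MZ`.
-/
import Mathlib
import Fermat.Agent.MZ.B.Seams
import Fermat.Agent.MZ.A.Place.Main

set_option autoImplicit false

noncomputable section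

open UpperHalfPlane
open scoped MatrixGroups Manifold

namespace Fermat.Agent.MZ

open Fermat.Agent.S24 AlgebraicCurve ModularCurve
open Fermat.Agent.S24.Br

local notation "Qbar" => AlgebraicClosure ℚ

variable (p : ℕ) [NeZero p]

/-- **`U = Δ(q)/Δ(q^p)` belongs to `Q̄(X₀(p))`.** -/
theorem mza_pls_Umem : mzb_Umem p := by
  unfold mzb_Umem
  rw [mzb_qi_U_coeffEmb]
  exact mza_plu_series_mem (mza_pl_qexp p)

theorem mza_pls_UB_eq (hU : mzb_Umem p) : mzb_UB p hU = mza_UB p := by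
  apply Subtype.ext
  rw [mzb_coe_UB, mza_UB_coe, mzb_qi_U_coeffEmb]

theorem mza_pls_jB_eq : mzb_jB p = mza_jB p := by
  apply Subtype.ext
  rw [mzb_coe_jB, mza_jB_coe, mzb_qi_j_coeffEmb, qExpand_one_apply]

/-- **[A-PLACE] in the vocabulary of `mza_stmt`.** -/
theorem mza_pls_main (hp : 2 ≤ p) (hU : mzb_Umem p) (τ : ℍ) (j0 u0 : Qbar)
    (hj : br_iota j0 = kleinJ τ) (hu : br_iota u0 = mza_Uan p τ) :
    ∃ x : Place Qbar (modularFunctionFieldBar p),
      0 < x.ord (mzb_jB p - algebraMap Qbar (modularFunctionFieldBar p) j0) ∧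
      0 < x.ord (mzb_UB p hU - algebraMap Qbar (modularFunctionFieldBar p) u0) := by
  rw [mza_pls_UB_eq, mza_pls_jB_eq]
  exact mza_pl_main p hp τ j0 u0 hj hu

/-- **`mza_stmt` from the analytic uniformisation statement** (the output of [A-ASM]). -/
theorem mza_pls_stmt_of_point
    (h : ∀ (p : ℕ) [NeZero p], p.Prime → p ≠ 2 →
      ∀ (W : WeierstrassCurve ℤ), W.Δ ≠ 0 → ∀ Q : mzb_el_E W, addOrderOf Q = p →
        ∃ τ' : ℍ, br_iota (mzb_el_j0 W) = kleinJ τ' ∧
          br_iota (mzb_el_U0 W p Q) = mza_Uan p τ') :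
    mza_stmt := by
  intro p _ hp hp2 hU W hΔ Q hQ
  obtain ⟨τ', hj, hu⟩ := h p hp hp2 W hΔ Q hQ
  exact mza_pls_main p hp.two_le hU τ' _ _ hj hu

end Fermat.Agent.MZ
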